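import Fermat.Agent.SilverDichotomy.Category

/-!
# The graph `G_0`
-/

set_option autoImplicit false

namespace FA.SilverDichotomy

open Set Topology Filter PiNat

/-- A dense choice of one binary word of each length. -/
noncomputable def denseWord (n : ℕ) (i : ℕ) : Bool :=
  ((Encodable.decode (α := List Bool) (Nat.unpair n).2).getD []).getD i false

theorem exists_denseWord_extends (x : ℕ → Bool) (m : ℕ) :
    ∃ n, m ≤ n ∧ ∀ i < m, denseWord n i = x i := by
  refine ⟨Nat.pair m (Encodable.encode ((List.range m).map x)), Nat.left_le_pair _ _,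
    fun i hi => ?_⟩
  simp [denseWord, Nat.unpair_pair, List.getD_eq_getElem?_getD, hi]

/-- The graph `G_0`, each edge directed from its zero end. -/
def gZero (x y : ℕ → Bool) : Prop :=
  ∃ n, (∀ i < n, x i = denseWord n i ∧ y i = denseWord n i) ∧ x n = false ∧ y n = true ∧
    ∀ i, n < i → x i = y i

/-- Changing one coordinate. -/
def flipAt (n : ℕ) (x : ℕ → Bool) : ℕ → Bool :=
  Function.update x n (!x n)

theorem flipAt_flipAt (n : ℕ) (x : ℕ → Bool) : flipAt n (flipAt n x) = x := by
  funext i
  by_cases hi : i = n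
  · subst hi
    simp [flipAt]
  · simp [flipAt, Function.update_of_ne hi]

theorem continuous_flipAt (n : ℕ) : Continuous (flipAt n) :=
  continuous_id.update n
    ((continuous_of_discreteTopology (f := fun b : Bool => !b)).comp (continuous_apply n))

theorem isOpenMap_flipAt (n : ℕ) : IsOpenMap (flipAt n) :=
  IsOpenMap.of_inverse (continuous_flipAt n) (flipAt_flipAt n) (flipAt_flipAt n)

/-- **Independent sets with the property of Baire are meagre.** -/
theorem isMeagre_of_gZero_independent {A : Set (ℕ → Bool)} (hA : BaireMeasurableSet A)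
    (hind : ∀ x ∈ A, ∀ y ∈ A, ¬gZero x y) : IsMeagre A := by
  obtain ⟨O, hO, hAO⟩ := hA.residualEq_isOpen
  rcases O.eq_empty_or_nonempty with rfl | ⟨x, hx⟩
  · simpa using isMeagre_diff_of_residualEq hAO
  exfalso
  obtain ⟨_, ⟨w, m, rfl⟩, hxm, hmO⟩ :=
    (isTopologicalBasis_cylinders fun _ : ℕ => Bool).exists_subset_of_mem_open hx hO
  obtain ⟨n, hmn, hn⟩ := exists_denseWord_extends x m
  let C : Set (ℕ → Bool) := cylinder (denseWord n) n
  have hCO : C ⊆ O := fun z hz => hmO (mem_cylinder_iff.2 fun i hi => by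
    rw [mem_cylinder_iff.1 hz i (hi.trans_le hmn), hn i hi, mem_cylinder_iff.1 hxm i hi])
  have hflip : ∀ z ∈ C, flipAt n z ∈ C := fun z hz i hi => by
    rw [flipAt, Function.update_of_ne hi.ne]
    exact hz i hi
  have hbad : IsMeagre (C \ A) :=
    isMeagre_mono (isMeagre_diff_of_residualEq hAO.symm) (sdiff_subset_sdiff_left hCO)
  refine not_isMeagre_of_isOpen (U := C) (isOpen_cylinder _ _ _)
    ⟨denseWord n, self_mem_cylinder _ _⟩
    (isMeagre_mono (isMeagre_union_pair hbad
      (hbad.preimage_of_isOpenMap (continuous_flipAt n) (isOpenMap_flipAt n))) fun z hz => ?_)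
  by_contra hno
  rw [mem_union, mem_preimage, not_or] at hno
  have h1 : z ∈ A := by_contra fun h => hno.1 ⟨hz, h⟩
  have h2 : flipAt n z ∈ A := by_contra fun h => hno.2 ⟨hflip z hz, h⟩
  have hfix : ∀ i, n < i → z i = flipAt n z i := fun i hi =>
    (Function.update_of_ne hi.ne' _ _).symm
  have hval : flipAt n z n = !z n := Function.update_self n _ z
  cases hzn : z n
  · exact hind z h1 _ h2
      ⟨n, fun i hi => ⟨hz i hi, hflip z hz i hi⟩, hzn, by rw [hval, hzn]; rfl, hfix⟩
  · exact hind _ h2 z h1 ⟨n, fun i hi => ⟨hflip z hz i hi, hz i hi⟩, by rw [hval, hzn]; rfl, hzn,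
      fun i hi => (hfix i hi).symm⟩

/-- **`G_0` has no countable colouring with the property of Baire.** -/
theorem exists_gZero_same_colour {c : (ℕ → Bool) → ℕ}
    (hc : ∀ k, BaireMeasurableSet (c ⁻¹' {k})) : ∃ x y, gZero x y ∧ c x = c y := by
  by_contra! h
  refine not_isMeagre_of_isOpen (X := ℕ → Bool) isOpen_univ univ_nonempty
    (isMeagre_mono (isMeagre_iUnion_countable fun k => isMeagre_of_gZero_independent (hc k)
      fun x hx y hy hxy => h x y hxy (hx.trans hy.symm)) fun x _ => mem_iUnion.2 ⟨c x, rfl⟩)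

end FA.SilverDichotomy
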