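import Mathlib.Topology.Baire.BaireMeasurable
import Mathlib.MeasureTheory.Constructions.Polish.Basic
import Mathlib.Topology.MetricSpace.PiNat
import Mathlib.Topology.Baire.CompleteMetrizable

/-!
# Analytic sets have the property of Baire, and sections in category

The envelope argument of Szpilrajn-Marczewski for analytic sets, and the theorem of Kuratowski
and Ulam on sections.
-/

set_option autoImplicit false

universe u v

namespace FA.SilverDichotomy

open Set Topology Filter MeasureTheory PiNat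

variable {X : Type u} [TopologicalSpace X] {Y : Type v} [TopologicalSpace Y]

theorem isMeagre_mono {s t : Set X} (ht : IsMeagre t) (h : s ⊆ t) : IsMeagre s :=
  Filter.mem_of_superset ht (compl_subset_compl.2 h)

theorem isMeagre_iUnion_countable {ι : Type*} [Countable ι] {s : ι → Set X}
    (h : ∀ i, IsMeagre (s i)) : IsMeagre (⋃ i, s i) := by
  rw [IsMeagre, compl_iUnion]
  exact countable_iInter_mem.2 h

theorem isMeagre_union_pair {s t : Set X} (hs : IsMeagre s) (ht : IsMeagre t) :
    IsMeagre (s ∪ t) := by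
  rw [IsMeagre, compl_union]
  exact Filter.inter_mem hs ht

theorem isMeagre_diff_of_residualEq {s t : Set X} (h : s =ᵇ t) : IsMeagre (s \ t) :=
  Filter.mem_of_superset (Filter.eventuallyEq_set.1 h) fun _ hx hst => hst.2 (hx.1 hst.1)

/-- A nonempty open set is not meagre. -/
theorem not_isMeagre_of_isOpen [BaireSpace X] {U : Set X} (hU : IsOpen U) (hne : U.Nonempty) :
    ¬IsMeagre U := fun h => by
  obtain ⟨x, hxU, hx⟩ := (dense_of_mem_residual h).inter_open_nonempty U hU hne
  exact hx hxU

variable [SecondCountableTopology X]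

/-- A measurable envelope for category. -/
theorem exists_envelope (A : Set X) :
    ∃ M : Set X, A ⊆ M ∧ BaireMeasurableSet M ∧
      ∀ B, BaireMeasurableSet B → B ⊆ M \ A → IsMeagre B := by
  classical
  obtain ⟨b, hbc, -, hb⟩ := TopologicalSpace.exists_countable_basis X
  let Big : Set X := ⋃ o : {o : b // IsMeagre (A ∩ (o : Set X))}, (o.1 : Set X)
  have : Countable b := hbc.to_subtype
  have hBig : IsMeagre (A ∩ Big) := by
    rw [inter_iUnion]
    exact isMeagre_iUnion_countable fun o => o.2
  have hopen : IsOpen Big := isOpen_iUnion fun o => hb.isOpen o.1.2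
  have hmax : ∀ O, IsOpen O → IsMeagre (A ∩ O) → O ⊆ Big := fun O hO hm x hx => by
    obtain ⟨t, ht, hxt, htO⟩ := hb.exists_subset_of_mem_open hx hO
    exact mem_iUnion.2 ⟨⟨⟨t, ht⟩, isMeagre_mono hm (inter_subset_inter_right _ htO)⟩, hxt⟩
  refine ⟨Bigᶜ ∪ A ∩ Big, fun x hx => ?_,
    hopen.baireMeasurableSet.compl.union hBig.baireMeasurableSet, fun B hB hsub => ?_⟩
  · by_cases h : x ∈ Big
    exacts [.inr ⟨hx, h⟩, .inl h]
  obtain ⟨O, hO, hBO⟩ := hB.residualEq_isOpen
  have hOB : O ⊆ Big := hmax O hO (isMeagre_mono (isMeagre_diff_of_residualEq hBO.symm)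
    fun x hx => ⟨hx.2, fun hxB => (hsub hxB).2 hx.1⟩)
  refine isMeagre_mono (isMeagre_diff_of_residualEq hBO) fun x hx => ⟨hx, fun hxO => ?_⟩
  rcases (hsub hx).1 with h | h
  exacts [h (hOB hxO), (hsub hx).2 h.1]

/-- **Analytic sets have the property of Baire.** -/
theorem analyticSet_baireMeasurable [T2Space X] {A : Set X} (hA : AnalyticSet A) :
    BaireMeasurableSet A := by
  rw [AnalyticSet] at hA
  rcases hA with rfl | ⟨f, hf, rfl⟩
  · exact IsMeagre.empty.baireMeasurableSet
  let cyl : List ℕ → Set (ℕ → ℕ) := fun s => {z | res z s.length = s}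
  have hex : ∀ s : List ℕ, ∃ M : Set X, f '' cyl s ⊆ M ∧ M ⊆ closure (f '' cyl s) ∧
      BaireMeasurableSet M ∧ ∀ B, BaireMeasurableSet B → B ⊆ M \ f '' cyl s → IsMeagre B := by
    intro s
    obtain ⟨M, h1, h2, h3⟩ := exists_envelope (f '' cyl s)
    exact ⟨M ∩ closure (f '' cyl s), subset_inter h1 subset_closure, inter_subset_right,
      h2.inter isClosed_closure.isOpen_compl.baireMeasurableSet.of_compl,
      fun B hB hsub => h3 B hB fun x hx => ⟨(hsub hx).1.1, (hsub hx).2⟩⟩
  choose M hAM hMc hM hmax using hex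
  have hpiece : ∀ s, IsMeagre (M s \ ⋃ n, M (n :: s)) := fun s => by
    refine hmax s _ ((hM s).diff (BaireMeasurableSet.iUnion fun n => hM _))
      fun x hx => ⟨hx.1, ?_⟩
    rintro ⟨z, hz, rfl⟩
    exact hx.2 (mem_iUnion.2 ⟨z s.length, hAM _ ⟨z, by
      change res z (s.length + 1) = z s.length :: s
      rw [res_succ, show res z s.length = s from hz], rfl⟩⟩)
  have hsub : M [] \ range f ⊆ ⋃ s, (M s \ ⋃ n, M (n :: s)) := by
    rintro x ⟨hx, hxf⟩
    by_contra hno
    simp only [mem_iUnion, Set.mem_sdiff, not_exists, not_and, not_forall, not_not] at hno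
    choose next hnext using hno
    let br : ℕ → {s : List ℕ // x ∈ M s} := fun n =>
      Nat.rec ⟨[], hx⟩ (fun _ s => ⟨next s.1 s.2 :: s.1, hnext s.1 s.2⟩) n
    let z : ℕ → ℕ := fun n => next (br n).1 (br n).2
    have hres : ∀ n, res z n = (br n).1 := fun n => by
      induction n with
      | zero => rfl
      | succ n ih => rw [res_succ, ih]
    obtain ⟨U, V, hU, hV, hxU, hzV, hUV⟩ := t2_separation fun h : x = f z => hxf ⟨z, h.symm⟩
    obtain ⟨_, ⟨w, n, rfl⟩, hzn, hnV⟩ := (isTopologicalBasis_cylinders fun _ : ℕ => ℕ)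
      |>.exists_subset_of_mem_open (a := z) hzV (hV.preimage hf)
    have hcl : x ∈ closure (f '' cyl (br n).1) := hMc _ (br n).2
    obtain ⟨_, hyU, y, hy, rfl⟩ := mem_closure_iff.1 hcl U hU hxU
    refine hUV.le_bot ⟨hyU, hnV ?_⟩
    rw [← mem_cylinder_iff_eq.1 hzn, cylinder_eq_res, mem_ofPred_eq, hres]
    have hlen : (br n).1.length = n := by rw [← hres, res_length]
    simpa only [cyl, mem_ofPred_eq, hlen] using hy
  have hrange : range f ⊆ M [] := fun x ⟨z, hz⟩ => hAM _ ⟨z, rfl, hz⟩
  rw [← sdiff_sdiff_cancel_left hrange]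
  exact (hM []).diff (isMeagre_mono (isMeagre_iUnion_countable hpiece) hsub).baireMeasurableSet

omit [SecondCountableTopology X] in
/-- A closed nowhere dense set of the product has nowhere dense sections almost everywhere. -/
theorem eventually_section_isMeagre_of_nowhereDense [SecondCountableTopology Y] {F : Set (X × Y)}
    (hF : IsClosed F) (hF' : IsNowhereDense F) : ∀ᵇ x : X, IsMeagre {y | (x, y) ∈ F} := by
  obtain ⟨b, hbc, hne, hb⟩ := TopologicalSpace.exists_countable_basis Y
  have : Countable b := hbc.to_subtype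
  let G : b → Set X := fun o => {x | ∃ y ∈ (o : Set Y), (x, y) ∉ F}
  have hG : ∀ o, IsOpen (G o) ∧ Dense (G o) := fun o => by
    refine ⟨?_, dense_iff_inter_open.2 fun U hU hUne => ?_⟩
    · have e : G o = Prod.fst '' ((univ ×ˢ (o : Set Y)) ∩ Fᶜ) := by
        ext x
        simp [G]
      rw [e]
      exact isOpenMap_fst _ ((isOpen_univ.prod (hb.isOpen o.2)).inter hF.isOpen_compl)
    · have hUo : (U ×ˢ (o : Set Y)).Nonempty :=
        hUne.prod (nonempty_iff_ne_empty.2 fun h => hne (h ▸ o.2))
      by_contra hempty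
      have hsub : U ×ˢ (o : Set Y) ⊆ interior F :=
        interior_maximal (fun p hp => by_contra fun hpF =>
          hempty ⟨p.1, hp.1, p.2, hp.2, hpF⟩) (hU.prod (hb.isOpen o.2))
      rw [IsNowhereDense, hF.closure_eq] at hF'
      exact hUo.not_subset_empty (hF' ▸ hsub)
  filter_upwards [countable_iInter_mem.2 fun o => residual_of_dense_open (hG o).1 (hG o).2]
    with x hx
  have hcl : IsClosed {y | (x, y) ∈ F} := hF.preimage (Continuous.prodMk_right x)
  refine IsNowhereDense.isMeagre ?_
  rw [IsNowhereDense, hcl.closure_eq, eq_empty_iff_forall_notMem]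
  intro y hy
  obtain ⟨o, ho, -, hosub⟩ := hb.exists_subset_of_mem_open hy isOpen_interior
  obtain ⟨y', hy', hy'F⟩ := mem_iInter.1 hx ⟨o, ho⟩
  exact hy'F (interior_subset (hosub hy') : y' ∈ {y | (x, y) ∈ F})

omit [SecondCountableTopology X] in
/-- Almost all sections of a meagre set are meagre. -/
theorem eventually_section_isMeagre [SecondCountableTopology Y] {R : Set (X × Y)}
    (hR : IsMeagre R) : ∀ᵇ x : X, IsMeagre {y | (x, y) ∈ R} := by
  obtain ⟨S, hS, hSc, hsub⟩ := isMeagre_iff_countable_union_isNowhereDense.1 hR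
  have : Countable S := hSc.to_subtype
  filter_upwards [eventually_countable_forall.2 fun F : S =>
    eventually_section_isMeagre_of_nowhereDense (X := X) (Y := Y)
      (isClosed_closure (s := (F : Set (X × Y)))) (hS F F.2).closure] with x hx
  refine isMeagre_mono (isMeagre_iUnion_countable hx) fun y hy => ?_
  obtain ⟨F, hF, hxy⟩ := hsub hy
  exact mem_iUnion.2 ⟨⟨F, hF⟩, subset_closure hxy⟩

omit [SecondCountableTopology X] in
/-- **Kuratowski and Ulam.** A set with the property of Baire all of whose sections are meagre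
is meagre. -/
theorem isMeagre_of_sections [BaireSpace X] [SecondCountableTopology Y] [BaireSpace Y]
    {R : Set (X × Y)} (hR : BaireMeasurableSet R)
    (h : ∀ᵇ x : X, IsMeagre {y | (x, y) ∈ R}) : IsMeagre R := by
  obtain ⟨O, hO, hRO⟩ := hR.residualEq_isOpen
  rcases O.eq_empty_or_nonempty with rfl | ⟨⟨a, c⟩, hac⟩
  · simpa using isMeagre_diff_of_residualEq hRO
  obtain ⟨U, V, hU, hV, haU, hcV, hsub⟩ := isOpen_prod_iff.1 hO a c hac
  have hev := (eventually_section_isMeagre (isMeagre_diff_of_residualEq hRO.symm)).and h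
  obtain ⟨x, hxU, hx1, hx2⟩ :=
    (dense_of_mem_residual hev).inter_open_nonempty U hU ⟨a, haU⟩
  refine absurd (isMeagre_mono (isMeagre_union_pair hx1 hx2) fun y hy => ?_)
    (not_isMeagre_of_isOpen hV ⟨c, hcV⟩)
  by_cases hxy : (x, y) ∈ R
  exacts [.inr hxy, .inl ⟨hsub ⟨hxU, hy⟩, hxy⟩]

omit [SecondCountableTopology X] in
/-- Continuous preimages of analytic sets are analytic. -/
theorem analyticSet_preimage [T2Space X] {Z : Type*} [TopologicalSpace Z] [PolishSpace Z]
    {A : Set X} (hA : AnalyticSet A) {g : Z → X} (hg : Continuous g) :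
    AnalyticSet (g ⁻¹' A) := by
  rw [AnalyticSet] at hA
  rcases hA with rfl | ⟨f, hf, rfl⟩
  · simpa using analyticSet_empty
  have hcl : IsClosed {p : Z × (ℕ → ℕ) | f p.2 = g p.1} :=
    isClosed_eq (hf.comp continuous_snd) (hg.comp continuous_fst)
  convert hcl.analyticSet.image_of_continuous continuous_fst using 1
  ext z
  simp

end FA.SilverDichotomy
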