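import Fermat.Agent.SilverDichotomy.Category

/-!
# Mycielski's theorem on Cantor space
-/

set_option autoImplicit false

namespace FA.SilverDichotomy

open Set Topology Filter PiNat

/-- A basic neighbourhood: a point and a length. -/
abbrev Node : Type := (ℕ → Bool) × ℕ

/-- Refinement of basic neighbourhoods. -/
def Node.Refines (q p : Node) : Prop :=
  p.2 ≤ q.2 ∧ q.1 ∈ cylinder p.1 p.2

theorem Node.refines_refl (p : Node) : Node.Refines p p :=
  ⟨le_rfl, self_mem_cylinder _ _⟩

theorem Node.Refines.subset {q p : Node} (h : Node.Refines q p) :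
    cylinder q.1 q.2 ⊆ cylinder p.1 p.2 :=
  (cylinder_anti q.1 h.1).trans (mem_cylinder_iff_eq.1 h.2).subset

theorem Node.Refines.trans {r q p : Node} (h : Node.Refines r q) (h' : Node.Refines q p) :
    Node.Refines r p :=
  ⟨h'.1.trans h.1, h'.subset h.2⟩

theorem isOpen_node (p : Node) : IsOpen (cylinder p.1 p.2) :=
  isOpen_cylinder _ _ _

theorem exists_node_subset {U : Set (ℕ → Bool)} (hU : IsOpen U) {z : ℕ → Bool} (hz : z ∈ U) :
    ∃ n, cylinder z n ⊆ U := by
  obtain ⟨_, ⟨w, n, rfl⟩, hzn, hsub⟩ :=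
    (isTopologicalBasis_cylinders fun _ : ℕ => Bool).exists_subset_of_mem_open hz hU
  exact ⟨n, (mem_cylinder_iff_eq.1 hzn).subset.trans hsub⟩

/-- Two neighbourhoods refine into a dense open relation. -/
theorem exists_refine_pair {W : Set ((ℕ → Bool) × (ℕ → Bool))} (hW : IsOpen W) (hd : Dense W)
    (p q : Node) : ∃ p' q' : Node, Node.Refines p' p ∧ Node.Refines q' q ∧
      cylinder p'.1 p'.2 ×ˢ cylinder q'.1 q'.2 ⊆ W := by
  obtain ⟨⟨a, b⟩, hab, habW⟩ := hd.inter_open_nonempty _
    ((isOpen_node p).prod (isOpen_node q))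
    ⟨⟨p.1, q.1⟩, self_mem_cylinder _ _, self_mem_cylinder _ _⟩
  obtain ⟨U, V, hU, hV, haU, hbV, hsub⟩ := isOpen_prod_iff.1 hW a b habW
  obtain ⟨n, hn⟩ := exists_node_subset hU haU
  obtain ⟨m, hm⟩ := exists_node_subset hV hbV
  exact ⟨(a, max n p.2), (b, max m q.2), ⟨le_max_right _ _, hab.1⟩, ⟨le_max_right _ _, hab.2⟩,
    (prod_mono ((cylinder_anti a (le_max_left _ _)).trans hn)
      ((cylinder_anti b (le_max_left _ _)).trans hm)).trans hsub⟩

/-- Finitely many neighbourhoods refine pairwise into a dense open relation. -/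
theorem exists_refine_family {ι : Type} [DecidableEq ι] {W : Set ((ℕ → Bool) × (ℕ → Bool))}
    (hW : IsOpen W) (hd : Dense W) (P : ι → Node) (s : Finset (ι × ι)) :
    ∃ Q : ι → Node, (∀ i, Node.Refines (Q i) (P i)) ∧ ∀ e ∈ s, e.1 ≠ e.2 →
      cylinder (Q e.1).1 (Q e.1).2 ×ˢ cylinder (Q e.2).1 (Q e.2).2 ⊆ W := by
  induction s using Finset.induction with
  | empty => exact ⟨P, fun i => Node.refines_refl _, by simp⟩
  | insert e s _ ih =>
    obtain ⟨Q, hQ, hgood⟩ := ih
    by_cases he : e.1 = e.2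
    · exact ⟨Q, hQ, fun d hd' hne => (Finset.mem_insert.1 hd').elim
        (fun h => absurd (h ▸ he) hne) fun h => hgood d h hne⟩
    obtain ⟨p', q', hp, hq, hpq⟩ := exists_refine_pair hW hd (Q e.1) (Q e.2)
    let Q' : ι → Node := Function.update (Function.update Q e.1 p') e.2 q'
    have h1 : Q' e.1 = p' := by simp [Q', Function.update_of_ne he]
    have h2 : Q' e.2 = q' := by simp [Q']
    have href : ∀ i, Node.Refines (Q' i) (Q i) := fun i => by
      by_cases hi₂ : i = e.2
      · rw [hi₂, h2]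
        exact hq
      by_cases hi₁ : i = e.1
      · rw [hi₁, h1]
        exact hp
      · simp only [Q', Function.update_of_ne hi₂, Function.update_of_ne hi₁]
        exact Node.refines_refl _
    refine ⟨Q', fun i => (href i).trans (hQ i), fun d hd' hne => ?_⟩
    rcases Finset.mem_insert.1 hd' with rfl | hd'
    · rw [h1, h2]
      exact hpq
    · exact (prod_mono (href _).subset (href _).subset).trans (hgood d hd' hne)

/-- The diagonal of Cantor space is nowhere dense. -/
theorem isNowhereDense_diagonal : IsNowhereDense {p : (ℕ → Bool) × (ℕ → Bool) | p.1 = p.2} := by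
  have hcl : IsClosed {p : (ℕ → Bool) × (ℕ → Bool) | p.1 = p.2} :=
    isClosed_eq continuous_fst continuous_snd
  rw [IsNowhereDense, hcl.closure_eq, eq_empty_iff_forall_notMem]
  rintro ⟨a, b⟩ hab
  obtain ⟨U, V, hU, hV, haU, hbV, hsub⟩ := isOpen_prod_iff.1 isOpen_interior a b hab
  obtain ⟨n, hn⟩ := exists_node_subset hU haU
  have h1 : (Function.update a n (!a n), b) ∈ U ×ˢ V :=
    ⟨hn fun i hi => Function.update_of_ne (by omega) _ _, hbV⟩
  have h2' : (Function.update a n (!a n), b) ∈ {p : (ℕ → Bool) × (ℕ → Bool) | p.1 = p.2} :=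
    interior_subset (hsub h1)
  have h2 : Function.update a n (!a n) = b := h2'
  have h3' : (a, b) ∈ {p : (ℕ → Bool) × (ℕ → Bool) | p.1 = p.2} := interior_subset hab
  have h3 : a = b := h3'
  have := congrFun (h3.trans h2.symm) n
  simp at this

/-- **Mycielski's theorem.** A meagre relation on Cantor space has a Cantor set of pairwise
unrelated points. -/
theorem exists_perfect_unrelated {R : Set ((ℕ → Bool) × (ℕ → Bool))} (hR : IsMeagre R) :
    ∃ f : (ℕ → Bool) → ℕ → Bool, Continuous f ∧ Function.Injective f ∧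
      ∀ a b, a ≠ b → (f a, f b) ∉ R := by
  classical
  have hR' : IsMeagre (R ∪ {p : (ℕ → Bool) × (ℕ → Bool) | p.1 = p.2}) :=
    isMeagre_union_pair hR isNowhereDense_diagonal.isMeagre
  obtain ⟨S, hSo, hSd, hSc, hsub⟩ := mem_residual_iff.1 hR'
  obtain ⟨W, hW⟩ := (hSc.insert univ).exists_eq_range (insert_nonempty _ _)
  let D : ℕ → Set ((ℕ → Bool) × (ℕ → Bool)) := fun n =>
    Nat.rec (W 0) (fun m X => X ∩ W (m + 1)) n
  have hWn : ∀ n, IsOpen (W n) ∧ Dense (W n) := fun n => by
    have : W n ∈ insert univ S := hW ▸ mem_range_self n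
    rcases this with h | h
    · rw [h]
      exact ⟨isOpen_univ, dense_univ⟩
    · exact ⟨hSo _ h, hSd _ h⟩
  have hD : ∀ n, IsOpen (D n) ∧ Dense (D n) := fun n => by
    induction n with
    | zero => exact hWn 0
    | succ n ih =>
      exact ⟨ih.1.inter (hWn _).1, ih.2.inter_of_isOpen_right (hWn _).2 (hWn _).1⟩
  have hDsub : ∀ m n, m ≤ n → D n ⊆ W m := fun m n hmn => by
    induction hmn with
    | refl =>
      cases m with
      | zero => exact subset_rfl
      | succ m => exact inter_subset_right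
    | step _ ih => exact inter_subset_left.trans ih
  -- one level of the scheme
  have hstep : ∀ (n : ℕ) (P : (Fin n → Bool) → Node), ∃ Q : (Fin (n + 1) → Bool) → Node,
      (∀ t, Node.Refines (Q t) (P (Fin.init t)) ∧ n + 1 ≤ (Q t).2) ∧ ∀ t t', t ≠ t' →
        cylinder (Q t).1 (Q t).2 ×ˢ cylinder (Q t').1 (Q t').2 ⊆ D (n + 1) := by
    intro n P
    obtain ⟨Q, hQ, hgood⟩ := exists_refine_family (hD (n + 1)).1 (hD (n + 1)).2
      (fun t : Fin (n + 1) → Bool => ((P (Fin.init t)).1, max (n + 1) (P (Fin.init t)).2))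
      Finset.univ
    exact ⟨Q, fun t => ⟨(hQ t).trans ⟨le_max_right _ _, self_mem_cylinder _ _⟩,
      (le_max_left _ _).trans (hQ t).1⟩, fun t t' h => hgood (t, t') (Finset.mem_univ _) h⟩
  choose next hnext hgood using hstep
  let P : ∀ n, (Fin n → Bool) → Node := fun n =>
    Nat.rec (motive := fun n => (Fin n → Bool) → Node) (fun _ => (fun _ => false, 0))
      (fun n Q => next n Q) n
  let node : (ℕ → Bool) → ℕ → Node := fun a n => P n fun i => a i
  have hchain : ∀ a m n, m ≤ n → Node.Refines (node a n) (node a m) := fun a m n hmn => by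
    induction hmn with
    | refl => exact Node.refines_refl _
    | @step n _ ih => exact ((hnext n (P n) fun i : Fin (n + 1) => a i).1).trans ih
  let f : (ℕ → Bool) → ℕ → Bool := fun a i => (node a (i + 1)).1 i
  have hmem : ∀ a n, f a ∈ cylinder (node a n).1 (node a n).2 := fun a n i hi => by
    have hlen : i < (node a (i + 1)).2 := (hnext i (P i) fun l : Fin (i + 1) => a l).2
    rcases le_total (i + 1) n with h | h
    · exact ((hchain a _ _ h).2 i hlen).symm
    · exact (hchain a _ _ h).2 i hi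
  have hlong : ∀ a b, a ≠ b → ∀ m, (f a, f b) ∈ W m := fun a b hab m => by
    obtain ⟨i, hi⟩ := Function.ne_iff.1 hab
    have hne : (fun l : Fin (max m i + 1) => a l) ≠ fun l : Fin (max m i + 1) => b l := fun h =>
      hi (congrFun h ⟨i, Nat.lt_succ_of_le (le_max_right m i)⟩)
    exact hDsub m (max m i + 1) ((le_max_left _ _).trans (Nat.le_succ _))
      (hgood _ (P (max m i)) _ _ hne ⟨hmem a (max m i + 1), hmem b (max m i + 1)⟩)
  have hout : ∀ a b, a ≠ b → (f a, f b) ∉ R ∪ {p : (ℕ → Bool) × (ℕ → Bool) | p.1 = p.2} := by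
    intro a b hab
    refine hsub (mem_sInter.2 fun t ht => ?_)
    obtain ⟨m, rfl⟩ : t ∈ range W := hW ▸ mem_insert_of_mem _ ht
    exact hlong a b hab m
  refine ⟨f, continuous_pi fun i => ?_, fun a b hab => by_contra fun hne =>
    hout a b hne (.inr hab), fun a b hab h => hout a b hab (.inl h)⟩
  exact (continuous_of_discreteTopology (f := fun t => (P (i + 1) t).1 i)).comp
    (continuous_pi fun l : Fin (i + 1) => continuous_apply (l : ℕ))

end FA.SilverDichotomy
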