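import Fermat.Agent.SilverDichotomy.GZero

/-!
# The dichotomy of Kechris, Solecki and Todorcevic

Miller's proof. A homomorphism from `G_0` is approximated by finite labellings. The labellings
that become terminal off countably many independent Borel sets are countably many, so one Borel
set serves for all of them.
-/

set_option autoImplicit false

universe u

namespace FA.SilverDichotomy

open Set Topology Filter MeasureTheory

/-- An edge of the finite graph on `2^n`, by level and source. -/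
abbrev Edge (n : ℕ) : Type :=
  Σ m : Fin n, {u : Fin n → Bool //
    (∀ i : Fin n, (i : ℕ) < m → u i = denseWord m i) ∧ u m = false}

/-- The other end of an edge. -/
def Edge.tgt {n : ℕ} (e : Edge n) : Fin n → Bool :=
  Function.update e.2.1 e.1 true

/-- An edge one level up. -/
def Edge.lift {n : ℕ} (e : Edge n) (t : Bool) : Edge (n + 1) :=
  ⟨e.1.castSucc, Fin.snoc e.2.1 t, fun i hi => by
    induction i using Fin.lastCases with
    | last => exact absurd hi (by simp)
    | cast i => simpa using e.2.2.1 i (by simpa using hi), by simpa using e.2.2.2⟩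

/-- An edge one level down. -/
def Edge.restrict {n : ℕ} (e : Edge (n + 1)) (h : (e.1 : ℕ) < n) : Edge n :=
  ⟨⟨e.1, h⟩, Fin.init e.2.1,
    fun i hi => by simpa [Fin.init] using e.2.2.1 i.castSucc (by simpa using hi),
    by
      have h1 : (⟨e.1, h⟩ : Fin n).castSucc = e.1 := Fin.ext rfl
      simpa [Fin.init, h1] using e.2.2.2⟩

theorem Edge.restrict_lift {n : ℕ} (e : Edge n) (t : Bool) (h : ((e.lift t).1 : ℕ) < n) :
    (e.lift t).restrict h = e := by
  obtain ⟨m, u, hu⟩ := e
  simp [Edge.lift, Edge.restrict]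

/-- An approximation at level `n`. -/
abbrev Approx (n : ℕ) : Type :=
  ((Fin n → Bool) → Fin n → ℕ) × (Edge n → Fin n → ℕ)

/-- A configuration at level `n`. -/
abbrev Config (n : ℕ) : Type :=
  ((Fin n → Bool) → ℕ → ℕ) × (Edge n → ℕ → ℕ)

/-- One step finer. -/
def Extends {n : ℕ} (a : Approx n) (b : Approx (n + 1)) : Prop :=
  (∀ u i, b.1 u (Fin.castSucc i) = a.1 (Fin.init u) i) ∧
    ∀ e t i, b.2 (Edge.lift e t) (Fin.castSucc i) = a.2 e i

variable {X : Type u}

/-- Configurations within `Y` matching an approximation. -/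
def configs (φ : (ℕ → ℕ) → X × X) (ψ : (ℕ → ℕ) → X) {n : ℕ} (a : Approx n) (Y : Set X) :
    Set (Config n) :=
  {γ | (∀ u (i : Fin n), γ.1 u i = a.1 u i) ∧ (∀ e (i : Fin n), γ.2 e i = a.2 e i) ∧
    (∀ e, φ (γ.2 e) = (ψ (γ.1 e.2.1), ψ (γ.1 e.tgt))) ∧ ∀ u, ψ (γ.1 u) ∈ Y}

theorem configs_mono {φ : (ℕ → ℕ) → X × X} {ψ : (ℕ → ℕ) → X} {n : ℕ} (a : Approx n)
    {Y Y' : Set X} (h : Y ⊆ Y') : configs φ ψ a Y ⊆ configs φ ψ a Y' :=
  fun _ hγ => ⟨hγ.1, hγ.2.1, hγ.2.2.1, fun u => h (hγ.2.2.2 u)⟩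

/-- The possible values at the distinguished vertex. -/
def valueSet (φ : (ℕ → ℕ) → X × X) (ψ : (ℕ → ℕ) → X) {n : ℕ} (a : Approx n) (Y : Set X) :
    Set X :=
  (fun γ : Config n => ψ (γ.1 fun i => denseWord n i)) '' configs φ ψ a Y

/-- No finer approximation has a configuration. -/
def Terminal (φ : (ℕ → ℕ) → X × X) (ψ : (ℕ → ℕ) → X) {n : ℕ} (a : Approx n) (Y : Set X) : Prop :=
  ∀ b, Extends a b → configs φ ψ b Y = ∅

/-- A set of vertices without edges inside. -/
def IndependentIn (G : Set (X × X)) (A : Set X) : Prop :=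
  ∀ x ∈ A, ∀ y ∈ A, (x, y) ∉ G

variable {φ : (ℕ → ℕ) → X × X} {ψ : (ℕ → ℕ) → X}

/-- **Terminal approximations have independent values.** -/
theorem independentIn_valueSet {n : ℕ} {a : Approx n} {Y : Set X} (h : Terminal φ ψ a Y) :
    IndependentIn (range φ) (valueSet φ ψ a Y) := by
  rintro _ ⟨γ₀, h₀, rfl⟩ _ ⟨γ₁, h₁, rfl⟩ ⟨w, hw⟩
  let γ : Bool → Config n := fun t => cond t γ₁ γ₀
  have hγ : ∀ t, γ t ∈ configs φ ψ a Y := fun t => by cases t <;> assumption
  let δ : Config (n + 1) := (fun z => (γ (z (Fin.last n))).1 (Fin.init z), fun e =>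
    if he : (e.1 : ℕ) < n then (γ (e.2.1 (Fin.last n))).2 (e.restrict he) else w)
  let b : Approx (n + 1) := (fun u i => δ.1 u i, fun e i => δ.2 e i)
  have hb : Extends a b := by
    refine ⟨fun u i => (hγ _).1 _ i, fun e t i => ?_⟩
    have he : ((e.lift t).1 : ℕ) < n := e.1.2
    change δ.2 (e.lift t) (i : ℕ) = a.2 e i
    simp only [δ, dif_pos he, Edge.restrict_lift]
    exact (hγ _).2.1 e i
  have hmem : δ ∈ configs φ ψ b Y := by
    refine ⟨fun _ _ => rfl, fun _ _ => rfl, fun e => ?_, fun u => (hγ _).2.2.2 _⟩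
    obtain ⟨m, z, hz, hzm⟩ := e
    simp only [δ, Edge.tgt]
    induction m using Fin.lastCases with
    | cast m =>
      have hm : ((m.castSucc : Fin (n + 1)) : ℕ) < n := m.isLt
      simp only [dif_pos hm, Function.update_of_ne (Fin.castSucc_lt_last m).ne',
        Fin.init_update_castSucc]
      exact (hγ _).2.2.1 (Edge.restrict ⟨m.castSucc, z, hz, hzm⟩ hm)
    | last =>
      have hm : ¬((Fin.last n : Fin (n + 1)) : ℕ) < n := by simp
      have h4 : Fin.init z = fun i : Fin n => denseWord n i := funext fun i => by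
        simpa [Fin.init] using hz i.castSucc (by simp)
      simp only [dif_neg hm, Function.update_self, Fin.init_update_last, hzm, h4]
      exact hw
  rw [h b hb] at hmem
  exact hmem

variable [TopologicalSpace X] [PolishSpace X] [MeasurableSpace X] [BorelSpace X]

theorem analyticSet_valueSet (hφ : Continuous φ) (hψ : Continuous ψ) {n : ℕ} (a : Approx n)
    {Y : Set X} (hY : MeasurableSet Y) : AnalyticSet (valueSet φ ψ a Y) := by
  borelize (Config n)
  have : PolishSpace (Config n) := ⟨⟩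
  have h1 : IsClosed {γ : Config n | (∀ u (i : Fin n), γ.1 u i = a.1 u i) ∧
      (∀ e (i : Fin n), γ.2 e i = a.2 e i) ∧
      ∀ e, φ (γ.2 e) = (ψ (γ.1 e.2.1), ψ (γ.1 e.tgt))} := by
    simp only [ofPred_and, ofPred_forall]
    refine IsClosed.inter (isClosed_iInter fun u => isClosed_iInter fun i => ?_)
      (IsClosed.inter (isClosed_iInter fun e => isClosed_iInter fun i => ?_)
        (isClosed_iInter fun e => ?_))
    · exact isClosed_eq (by fun_prop) continuous_const
    · exact isClosed_eq (by fun_prop) continuous_const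
    · exact isClosed_eq (by fun_prop) (by fun_prop)
  have h2 : MeasurableSet {γ : Config n | ∀ u, ψ (γ.1 u) ∈ Y} := by
    rw [ofPred_forall]
    exact MeasurableSet.iInter fun u =>
      (hψ.comp ((continuous_apply u).comp continuous_fst)).measurable hY
  have e : configs φ ψ a Y = {γ : Config n | (∀ u (i : Fin n), γ.1 u i = a.1 u i) ∧
      (∀ e (i : Fin n), γ.2 e i = a.2 e i) ∧
      ∀ e, φ (γ.2 e) = (ψ (γ.1 e.2.1), ψ (γ.1 e.tgt))} ∩ {γ | ∀ u, ψ (γ.1 u) ∈ Y} := by
    ext γ
    simp only [configs, mem_ofPred_eq, mem_inter_iff]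
    tauto
  rw [valueSet, e]
  exact (h1.measurableSet.inter h2).analyticSet.image_of_continuous
    (hψ.comp ((continuous_apply _).comp continuous_fst))

/-- An analytic independent set lies in a Borel one. -/
theorem exists_borel_independent_superset (hφ : Continuous φ) {A : Set X} (hA : AnalyticSet A)
    (hind : IndependentIn (range φ) A) :
    ∃ B, A ⊆ B ∧ MeasurableSet B ∧ IndependentIn (range φ) B := by
  have h1 : AnalyticSet ((fun w => (φ w).2) '' {w | (φ w).1 ∈ A}) :=
    (analyticSet_preimage hA (continuous_fst.comp hφ)).image_of_continuous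
      (continuous_snd.comp hφ)
  obtain ⟨B₁, hAB₁, hd₁, hB₁⟩ := hA.measurablySeparable h1 (Set.disjoint_left.2 fun y hy hy' => by
    obtain ⟨w, hw, rfl⟩ := hy'
    exact hind _ hw _ hy ⟨w, rfl⟩)
  borelize (ℕ → ℕ)
  have h2 : AnalyticSet ((fun w => (φ w).1) '' {w | (φ w).2 ∈ B₁}) :=
    ((continuous_snd.comp hφ).measurable hB₁).analyticSet.image_of_continuous
      (continuous_fst.comp hφ)
  obtain ⟨B₂, hAB₂, hd₂, hB₂⟩ := hA.measurablySeparable h2 (Set.disjoint_left.2 fun x hx hx' => by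
    obtain ⟨w, hw, rfl⟩ := hx'
    exact Set.disjoint_left.1 hd₁ ⟨w, hx, rfl⟩ hw)
  refine ⟨B₁ ∩ B₂, subset_inter hAB₁ hAB₂, hB₁.inter hB₂, fun x hx y hy hxy => ?_⟩
  obtain ⟨w, hw⟩ := hxy
  exact Set.disjoint_left.1 hd₂
    ⟨w, show (φ w).2 ∈ B₁ by rw [hw]; exact hy.1, congrArg Prod.fst hw⟩ hx.2

/-- Covered by countably many independent Borel sets. -/
def SmallSet (G : Set (X × X)) (S : Set X) : Prop :=
  ∃ F : Set (Set X), F.Countable ∧ (∀ B ∈ F, MeasurableSet B ∧ IndependentIn G B) ∧ S ⊆ ⋃₀ F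

omit [TopologicalSpace X] [PolishSpace X] [BorelSpace X] in
theorem SmallSet.iUnion {G : Set (X × X)} {ι : Type*} [Countable ι] {S : ι → Set X}
    (h : ∀ i, SmallSet G (S i)) : SmallSet G (⋃ i, S i) := by
  choose F hF hB hsub using h
  refine ⟨⋃ i, F i, countable_iUnion hF, fun B hB' => ?_, iUnion_subset fun i =>
    (hsub i).trans (sUnion_subset_sUnion (subset_iUnion F i))⟩
  obtain ⟨i, hi⟩ := mem_iUnion.1 hB'
  exact hB i B hi

/-- Terminal off a small set. -/
def EventuallyTerminal (φ : (ℕ → ℕ) → X × X) (ψ : (ℕ → ℕ) → X) (a : Σ n, Approx n) : Prop :=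
  ∃ Y, MeasurableSet Y ∧ SmallSet (range φ) Yᶜ ∧ Terminal φ ψ a.2 Y

/-- One Borel set makes all eventually terminal approximations terminal, with values removed. -/
theorem exists_refined_set (hφ : Continuous φ) (hψ : Continuous ψ) :
    ∃ Y, MeasurableSet Y ∧ SmallSet (range φ) Yᶜ ∧ ∀ (n : ℕ) (a : Approx n),
      EventuallyTerminal φ ψ ⟨n, a⟩ → Terminal φ ψ a Y ∧ configs φ ψ a Y = ∅ := by
  classical
  choose Y hYm hYs hYt using fun a : {a // EventuallyTerminal φ ψ a} => a.2
  have hterm : ∀ a : {a // EventuallyTerminal φ ψ a},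
      Terminal φ ψ a.1.2 (⋂ a, Y a) := fun a b hb =>
    subset_empty_iff.1 ((configs_mono b (iInter_subset Y a)).trans (hYt a b hb).subset)
  have hm : MeasurableSet (⋂ a, Y a) := MeasurableSet.iInter hYm
  choose B hAB hBm hBi using fun a : {a // EventuallyTerminal φ ψ a} =>
    exists_borel_independent_superset hφ (analyticSet_valueSet hφ hψ a.1.2 hm)
      (independentIn_valueSet (hterm a))
  refine ⟨(⋂ a, Y a) \ ⋃ a, B a, hm.diff (MeasurableSet.iUnion hBm), ?_, fun n a ha => ?_⟩
  · have e : ((⋂ a, Y a) \ ⋃ a, B a)ᶜ = ⋃ a, ((Y a)ᶜ ∪ B a) := by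
      ext x
      simp only [mem_compl_iff, Set.mem_sdiff, mem_iInter, mem_iUnion, mem_union]
      constructor
      · intro h
        by_contra! hno
        exact h ⟨fun i => (hno i).1, fun ⟨i, hi⟩ => (hno i).2 hi⟩
      · rintro ⟨i, hi | hi⟩ ⟨h1, h2⟩
        exacts [hi (h1 i), h2 ⟨i, hi⟩]
    rw [e]
    refine SmallSet.iUnion fun a => ?_
    obtain ⟨F, hF, hFB, hsub⟩ := hYs a
    refine ⟨insert (B a) F, hF.insert _, fun C hC => ?_, union_subset
      (hsub.trans (sUnion_subset_sUnion (subset_insert _ _)))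
      (subset_sUnion_of_mem (mem_insert _ _))⟩
    rcases hC with rfl | hC
    exacts [⟨hBm a, hBi a⟩, hFB C hC]
  · refine ⟨fun b hb => subset_empty_iff.1 ((configs_mono b sdiff_subset).trans
      (hterm ⟨⟨n, a⟩, ha⟩ b hb).subset), subset_empty_iff.1 fun γ hγ => ?_⟩
    exact (hγ.2.2.2 fun i => denseWord n i).2 (mem_iUnion.2 ⟨⟨⟨n, a⟩, ha⟩,
      hAB ⟨⟨n, a⟩, ha⟩ ⟨γ, configs_mono a sdiff_subset hγ, rfl⟩⟩)

omit [MeasurableSpace X] [BorelSpace X] in
/-- A chain of approximations with configurations gives a homomorphism. -/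
theorem exists_hom_of_chain (hφ : Continuous φ) (hψ : Continuous ψ) (a : ∀ n, Approx n)
    (hext : ∀ n, Extends (a n) (a (n + 1)))
    (hne : ∀ n, (configs φ ψ (a (n + 1)) univ).Nonempty) :
    ∃ h : (ℕ → Bool) → X, Continuous h ∧ ∀ x y, gZero x y → (h x, h y) ∈ range φ := by
  let Ψ : (ℕ → Bool) → ℕ → ℕ := fun z i =>
    (a (i + 1)).1 (fun l => z l) ⟨i, Nat.lt_succ_self i⟩
  have hΨ : ∀ z N i (hi : i < N), (a N).1 (fun l => z l) ⟨i, hi⟩ = Ψ z i := fun z N i hi => by
    induction N, Nat.succ_le_of_lt hi using Nat.le_induction with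
    | base => rfl
    | succ N hN ih => exact ((hext N).1 (fun l => z l) ⟨i, hN⟩).trans (ih hN)
  have hcont : Continuous Ψ := continuous_pi fun i =>
    (continuous_of_discreteTopology
      (f := fun u : Fin (i + 1) → Bool => (a (i + 1)).1 u ⟨i, Nat.lt_succ_self i⟩)).comp
      (continuous_pi fun l : Fin (i + 1) => continuous_apply (l : ℕ))
  refine ⟨ψ ∘ Ψ, hψ.comp hcont, fun x y hxy => ?_⟩
  obtain ⟨n, hlow, hxn, hyn, hhigh⟩ := hxy
  let e : ∀ N, n < N → Edge N := fun N hN =>
    ⟨⟨n, hN⟩, fun l => x l, fun i hi => (hlow i hi).1, hxn⟩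
  let W : ℕ → ℕ := fun i => (a (n + i + 1)).2 (e _ (by omega)) ⟨i, by omega⟩
  have hW : ∀ i N (hN : n + i + 1 ≤ N),
      (a N).2 (e N (by omega)) ⟨i, by omega⟩ = W i := fun i N hN => by
    induction N, hN using Nat.le_induction with
    | base => rfl
    | succ N hN ih =>
      have he : (e N (by omega)).lift (x N) = e (N + 1) (by omega) := by
        refine Sigma.ext rfl (heq_of_eq (Subtype.ext (funext fun l => ?_)))
        induction l using Fin.lastCases with
        | last => simp [e, Edge.lift]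
        | cast l => simp [e, Edge.lift]
      rw [← he]
      exact ((hext N).2 _ (x N) ⟨i, by omega⟩).trans ih
  have htgt : ∀ N (hN : n < N), (e N hN).tgt = fun l : Fin N => y l :=
      fun N hN => funext fun l => by
    by_cases hl : l = ⟨n, hN⟩
    · subst hl
      simp [Edge.tgt, e, hyn]
    · have hln : (l : ℕ) ≠ n := fun h => hl (Fin.ext h)
      simp only [Edge.tgt, e, Function.update_of_ne hl]
      rcases lt_or_gt_of_ne hln with h | h
      exacts [(hlow l h).1.trans (hlow l h).2.symm, hhigh l h]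
  choose γ hγ using hne
  have hlimv : ∀ z : ℕ → Bool,
      Tendsto (fun k => (γ (n + k)).1 fun l => z l) atTop (𝓝 (Ψ z)) := fun z =>
    tendsto_pi_nhds.2 fun i => tendsto_const_nhds.congr'
      (eventually_atTop.2 ⟨i, fun k hk =>
        (((hγ (n + k)).1 (fun l => z l) ⟨i, by omega⟩).trans (hΨ z _ i (by omega))).symm⟩)
  have hlime : Tendsto (fun k => (γ (n + k)).2 (e _ (by omega))) atTop (𝓝 W) :=
    tendsto_pi_nhds.2 fun i => tendsto_const_nhds.congr'
      (eventually_atTop.2 ⟨i, fun k hk =>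
        (((hγ (n + k)).2.1 (e _ (by omega)) ⟨i, by omega⟩).trans (hW i _ (by omega))).symm⟩)
  refine ⟨W, tendsto_nhds_unique ((hφ.tendsto W).comp hlime) ?_⟩
  have h := ((hψ.tendsto _).comp (hlimv x)).prodMk_nhds ((hψ.tendsto _).comp (hlimv y))
  refine h.congr fun k => ?_
  have := (hγ (n + k)).2.2.1 (e _ (by omega))
  rw [htgt] at this
  exact this.symm

/-- **The dichotomy.** An analytic digraph has a countable Borel colouring or receives a continuous
homomorphism from `G_0`. -/
theorem exists_colouring_or_hom {G : Set (X × X)} (hG : AnalyticSet G) :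
    (∃ c : X → ℕ, Measurable c ∧ ∀ x y, (x, y) ∈ G → c x ≠ c y) ∨
      ∃ h : (ℕ → Bool) → X, Continuous h ∧ ∀ x y, gZero x y → (h x, h y) ∈ G := by
  classical
  rw [AnalyticSet] at hG
  rcases hG with rfl | ⟨φ, hφ, rfl⟩
  · exact .inl ⟨fun _ => 0, measurable_const, fun x y h => h.elim⟩
  have : Nonempty X := ⟨(φ 0).1⟩
  obtain ⟨ψ, hψ, hsurj⟩ := PolishSpace.exists_nat_nat_continuous_surjective X
  obtain ⟨Y, hYm, hYs, hY⟩ := exists_refined_set hφ hψ
  let a₀ : Approx 0 := (fun _ => Fin.elim0, fun e => e.1.elim0)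
  by_cases h0 : EventuallyTerminal φ ψ ⟨0, a₀⟩
  · -- the values of the empty approximation exhaust the set
    have hall : SmallSet (range φ) univ := by
      obtain ⟨F, hF, hFB, hsub⟩ := hYs
      refine ⟨F, hF, hFB, fun x _ => hsub fun hxY => ?_⟩
      obtain ⟨p, rfl⟩ := hsurj x
      have hp : ((fun _ => p, fun e => e.1.elim0) : Config 0) ∈ configs φ ψ a₀ Y :=
        ⟨fun _ i => i.elim0, fun e => e.1.elim0, fun e => e.1.elim0, fun _ => hxY⟩
      rw [(hY 0 a₀ h0).2] at hp
      exact hp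
    obtain ⟨F, hF, hFB, hsub⟩ := hall
    obtain ⟨B, hB⟩ := (hF.insert ∅).exists_eq_range (insert_nonempty _ _)
    have hBk : ∀ k, MeasurableSet (B k) ∧ IndependentIn (range φ) (B k) := fun k => by
      have : B k ∈ insert ∅ F := hB ▸ mem_range_self k
      rcases this with h | h
      · rw [h]
        exact ⟨MeasurableSet.empty, fun x hx => hx.elim⟩
      · exact hFB _ h
    have hcov : ∀ x, ∃ k, x ∈ B k := fun x => by
      obtain ⟨C, hC, hxC⟩ := hsub (mem_univ x)
      obtain ⟨k, rfl⟩ : C ∈ range B := hB ▸ mem_insert_of_mem _ hC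
      exact ⟨k, hxC⟩
    refine .inl ⟨fun x => Nat.find (hcov x), measurable_find hcov fun k => (hBk k).1,
      fun x y hxy heq => ?_⟩
    simp only at heq
    exact (hBk _).2 x (Nat.find_spec (hcov x)) y (by rw [heq]; exact Nat.find_spec (hcov y)) hxy
  · right
    have hstep : ∀ (n : ℕ) (a : {a : Approx n // ¬EventuallyTerminal φ ψ ⟨n, a⟩}),
        ∃ b : {b : Approx (n + 1) // ¬EventuallyTerminal φ ψ ⟨n + 1, b⟩},
          Extends a.1 b.1 ∧ (configs φ ψ b.1 univ).Nonempty := by
      intro n a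
      have : ¬Terminal φ ψ a.1 Y := fun h => a.2 ⟨Y, hYm, hYs, h⟩
      simp only [Terminal, not_forall] at this
      obtain ⟨b, hb, hne⟩ := this
      refine ⟨⟨b, fun hbT => hne (hY _ b hbT).2⟩, hb, ?_⟩
      exact (nonempty_iff_ne_empty.2 hne).mono (configs_mono b (subset_univ Y))
    choose next hnext hne using hstep
    let a : ∀ n, {a : Approx n // ¬EventuallyTerminal φ ψ ⟨n, a⟩} := fun n =>
      Nat.rec ⟨a₀, h0⟩ next n
    exact exists_hom_of_chain hφ hψ (fun n => (a n).1) (fun n => hnext n (a n))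
      fun n => hne n (a n)

end FA.SilverDichotomy
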